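import Fermat.Agent.MUL.Orig.S05.H65.Core
import Fermat.Agent.MUL.Orig.S05.H65.Sym
import Fermat.Agent.MUL.Orig.S05.H27.C2

section MergeWrap_Lib_MultRed_Comp_Core -- from Lib/MultRed/Comp/Core.lean

/-!
# Lib/MultRed/Comp/Core: the component function near a node, every residue characteristic

Abstract valuation computations for the x-coordinates of `P ± Q` on a Weierstrass curve in the
nodal normal form `y² + a₁xy = x³ + a₂x² + a₆` (`b₄ = 0`, `b₆ = 4a₆`, `b₈ = b₂a₆`), with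
`w b₂ = 0`, `w a₆ = 2h > 0` and `w 2 ≥ 0` (so residue characteristic `2` is allowed):

* `(r₁ + r₂) (x₁ - x₂)² = x₁x₂(b₂ + 2(x₁ + x₂)) + 4a₆`
* `(r₁ r₂) (x₁ - x₂)² = x₁²x₂² - a₆(b₂ + 4(x₁ + x₂))`

imply `Rel h (cl x₁) (cl x₂) (cl r₁) (cl r₂)` (`cl`, `Rel` of `S05/H65/Core.lean`).
Owner: helper45 (cluster E', seat E-L).
-/

set_option autoImplicit false

namespace Fermat.Agent.MultRed.Comp

open S05H65 S05H65.AVal

variable {K : Type*} [Field K] {G : Type*} [AddCommGroup G] [LinearOrder G] [IsOrderedAddMonoid G]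

/-- Basic hypotheses on the parameters of the nodal normal form. -/
structure CoreN (V : AVal K G) (b₂ a₆ : K) (h : G) : Prop where
  h2 : V.Ge (2 : K) 0
  hb₂ : V.Ex b₂ 0
  ha₆ : V.Ex a₆ (h + h)
  hh : 0 < h

variable {V : AVal K G} {b₂ a₆ : K} {h : G}

namespace CoreN

variable (C : CoreN V b₂ a₆ h)
include C

lemma ge_four : V.Ge (4 : K) 0 := by
  have h1 := C.h2.mul C.h2
  rw [show (2 : K) * 2 = 4 by norm_num, add_zero] at h1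
  exact h1

lemma ge_eight : V.Ge (8 : K) 0 := by
  have h1 := C.h2.mul C.ge_four
  rw [show (2 : K) * 4 = 8 by norm_num, add_zero] at h1
  exact h1

lemma ge_four_a₆ : V.Ge (4 * a₆) (h + h) := by
  have h1 := C.ge_four.mul C.ha₆.ge
  rwa [zero_add] at h1

lemma ex_b₂a₆ : V.Ex (b₂ * a₆) (h + h) := by
  have h1 := C.hb₂.mul C.ha₆
  rwa [zero_add] at h1

end CoreN

section Main

variable (C : CoreN V b₂ a₆ h) {x₁ x₂ r₁ r₂ : K}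
include C

/-- For `x₁, x₂` in the maximal ideal, `b₂ + 2(x₁ + x₂)` is a unit. -/
lemma ex_U (g1 : V.Gt x₁ 0) (g2 : V.Gt x₂ 0) : V.Ex (b₂ + 2 * (x₁ + x₂)) 0 :=
  C.hb₂.add_gt ((C.h2.mul_gt (g1.add g2)).mono (by grind))

/-- For `x₁, x₂` in the maximal ideal, `b₂ + 4(x₁ + x₂)` is a unit. -/
lemma ex_U' (g1 : V.Gt x₁ 0) (g2 : V.Gt x₂ 0) : V.Ex (b₂ + 4 * (x₁ + x₂)) 0 :=
  C.hb₂.add_gt ((C.ge_four.mul_gt (g1.add g2)).mono (by grind))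

lemma ex_second (g1 : V.Gt x₁ 0) (g2 : V.Gt x₂ 0) :
    V.Ex (a₆ * (b₂ + 4 * (x₁ + x₂))) (h + h) :=
  (C.ha₆.mul (ex_U' C g1 g2)).congr (by grind)

/-- Case (L,L): both points in the identity component. -/
lemma case_LL {α₁ α₂ : G} (h1 : V.Ex x₁ α₁) (h2 : V.Ex x₂ α₂) (hα₁ : α₁ ≤ 0) (hα₂ : α₂ ≤ 0)
    (hne : x₁ ≠ x₂)
    (hS : (r₁ + r₂) * (x₁ - x₂) ^ 2 = x₁ * x₂ * (b₂ + 2 * (x₁ + x₂)) + 4 * a₆)
    (hP : (r₁ * r₂) * (x₁ - x₂) ^ 2 = x₁ ^ 2 * x₂ ^ 2 - a₆ * (b₂ + 4 * (x₁ + x₂))) :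
    V.NotM r₁ ∧ V.NotM r₂ := by
  have hh := C.hh
  set m := min α₁ α₂ with hm
  have hd0 : x₁ - x₂ ≠ 0 := sub_ne_zero.mpr hne
  have hdge : V.Ge (x₁ - x₂) m := (h1.ge' (by grind)).sub (h2.ge' (by grind))
  have hd : m ≤ V.w (x₁ - x₂) := hdge.le_of_ne hd0
  have hD : V.Ex ((x₁ - x₂) ^ 2) (V.w (x₁ - x₂) + V.w (x₁ - x₂)) := (ex_of_ne hd0).sq
  have h12 : V.Ex (x₁ * x₂) (α₁ + α₂) := h1.mul h2
  have hsq : V.Ex (x₁ ^ 2 * x₂ ^ 2) (α₁ + α₁ + (α₂ + α₂)) := h1.sq.mul h2.sq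
  have hsum : V.Ge (x₁ + x₂) m := (h1.ge' (by grind)).add (h2.ge' (by grind))
  have hU : V.Ge (b₂ + 2 * (x₁ + x₂)) m :=
    (C.hb₂.ge' (by grind)).add ((C.h2.mul hsum).mono (by grind))
  have hU' : V.Ge (b₂ + 4 * (x₁ + x₂)) m :=
    (C.hb₂.ge' (by grind)).add ((C.ge_four.mul hsum).mono (by grind))
  have hnP : V.Ex (x₁ ^ 2 * x₂ ^ 2 - a₆ * (b₂ + 4 * (x₁ + x₂))) (α₁ + α₁ + (α₂ + α₂)) :=
    hsq.sub_gt ((C.ha₆.mul_ge hU').gt (by grind))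
  have hnS : V.Ge (x₁ * x₂ * (b₂ + 2 * (x₁ + x₂)) + 4 * a₆) (α₁ + α₂ + m) :=
    (h12.mul_ge hU).add (C.ge_four_a₆.mono (by grind))
  have hSe := eq_div_sq hne hS
  have hPe := eq_div_sq hne hP
  have hPi := hnP.div hD
  have hSi := hnS.div hD
  exact vieta_high hSe hPe (hSi.mono (by grind)) hPi (by grind)

/-- Case (L,M): first point in the identity component, second near the node (not deep). -/
lemma case_LM {α₁ β : G} (h1 : V.Ex x₁ α₁) (h2 : V.Ex x₂ β) (hα₁ : α₁ ≤ 0) (hβ0 : 0 < β)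
    (hβh : β < h) (hne : x₁ ≠ x₂)
    (hS : (r₁ + r₂) * (x₁ - x₂) ^ 2 = x₁ * x₂ * (b₂ + 2 * (x₁ + x₂)) + 4 * a₆)
    (hP : (r₁ * r₂) * (x₁ - x₂) ^ 2 = x₁ ^ 2 * x₂ ^ 2 - a₆ * (b₂ + 4 * (x₁ + x₂))) :
    V.Ex r₁ β ∧ V.Ex r₂ β := by
  have hh := C.hh
  have hd : V.Ex (x₁ - x₂) α₁ := h1.sub_gt (h2.gt' (by grind))
  have hD : V.Ex ((x₁ - x₂) ^ 2) (α₁ + α₁) := hd.sq
  have h12 : V.Ex (x₁ * x₂) (α₁ + β) := h1.mul h2
  have hsq : V.Ex (x₁ ^ 2 * x₂ ^ 2) (α₁ + α₁ + (β + β)) := h1.sq.mul h2.sq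
  have hsum : V.Ge (x₁ + x₂) α₁ := h1.ge.add (h2.ge' (by grind))
  have hU : V.Ge (b₂ + 2 * (x₁ + x₂)) α₁ :=
    (C.hb₂.ge' (by grind)).add ((C.h2.mul hsum).mono (by grind))
  have hU' : V.Ge (b₂ + 4 * (x₁ + x₂)) α₁ :=
    (C.hb₂.ge' (by grind)).add ((C.ge_four.mul hsum).mono (by grind))
  have hnP : V.Ex (x₁ ^ 2 * x₂ ^ 2 - a₆ * (b₂ + 4 * (x₁ + x₂))) (α₁ + α₁ + (β + β)) :=
    hsq.sub_gt ((C.ha₆.mul_ge hU').gt (by grind))
  have hnS : V.Ge (x₁ * x₂ * (b₂ + 2 * (x₁ + x₂)) + 4 * a₆) (α₁ + β + α₁) :=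
    (h12.mul_ge hU).add (C.ge_four_a₆.mono (by grind))
  have hSe := eq_div_sq hne hS
  have hPe := eq_div_sq hne hP
  have hPi := hnP.div hD
  have hSi := hnS.div hD
  exact vieta_eq hSe hPe (hSi.mono (by grind)) (hPi.congr (by grind))

/-- Case (L,R): first point in the identity component, second deep near the node. -/
lemma case_LR {α₁ : G} (h1 : V.Ex x₁ α₁) (h2 : V.Ge x₂ h) (hα₁ : α₁ ≤ 0) (hne : x₁ ≠ x₂)
    (hS : (r₁ + r₂) * (x₁ - x₂) ^ 2 = x₁ * x₂ * (b₂ + 2 * (x₁ + x₂)) + 4 * a₆)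
    (hP : (r₁ * r₂) * (x₁ - x₂) ^ 2 = x₁ ^ 2 * x₂ ^ 2 - a₆ * (b₂ + 4 * (x₁ + x₂))) :
    V.Ge r₁ h ∧ V.Ge r₂ h := by
  have hh := C.hh
  have hd : V.Ex (x₁ - x₂) α₁ := h1.sub_gt (h2.gt (by grind))
  have hD : V.Ex ((x₁ - x₂) ^ 2) (α₁ + α₁) := hd.sq
  have h12 : V.Ge (x₁ * x₂) (α₁ + h) := h1.ge.mul h2
  have hsq : V.Ge (x₁ ^ 2 * x₂ ^ 2) (α₁ + α₁ + (h + h)) := h1.sq.ge.mul h2.sq
  have hsum : V.Ge (x₁ + x₂) α₁ := h1.ge.add (h2.mono (by grind))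
  have hU : V.Ge (b₂ + 2 * (x₁ + x₂)) α₁ :=
    (C.hb₂.ge' (by grind)).add ((C.h2.mul hsum).mono (by grind))
  have hU' : V.Ge (b₂ + 4 * (x₁ + x₂)) α₁ :=
    (C.hb₂.ge' (by grind)).add ((C.ge_four.mul hsum).mono (by grind))
  have hnP : V.Ge (x₁ ^ 2 * x₂ ^ 2 - a₆ * (b₂ + 4 * (x₁ + x₂))) (α₁ + α₁ + (h + h)) :=
    hsq.sub ((C.ha₆.mul_ge hU').mono (by grind))
  have hnS : V.Ge (x₁ * x₂ * (b₂ + 2 * (x₁ + x₂)) + 4 * a₆) (α₁ + h + α₁) :=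
    (h12.mul hU).add (C.ge_four_a₆.mono (by grind))
  have hSe := eq_div_sq hne hS
  have hPe := eq_div_sq hne hP
  have hPi := hnP.div hD
  have hSi := hnS.div hD
  exact vieta_low hSe hPe (hSi.mono (by grind)) (hPi.mono (by grind))

/-- Case (M,M) with `α₁ < α₂`. -/
lemma case_MM_lt {α₁ α₂ : G} (h1 : V.Ex x₁ α₁) (h2 : V.Ex x₂ α₂) (hα₁ : 0 < α₁)
    (hlt : α₁ < α₂) (hα₂ : α₂ < h) (hne : x₁ ≠ x₂)
    (hS : (r₁ + r₂) * (x₁ - x₂) ^ 2 = x₁ * x₂ * (b₂ + 2 * (x₁ + x₂)) + 4 * a₆)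
    (hP : (r₁ * r₂) * (x₁ - x₂) ^ 2 = x₁ ^ 2 * x₂ ^ 2 - a₆ * (b₂ + 4 * (x₁ + x₂))) :
    AVal.Rel h α₁ α₂ (V.cl h r₁) (V.cl h r₂) := by
  have hh := C.hh
  have g1 : V.Gt x₁ 0 := h1.gt' hα₁
  have g2 : V.Gt x₂ 0 := h2.gt' (by grind)
  have hd : V.Ex (x₁ - x₂) α₁ := h1.sub_gt (h2.gt' hlt)
  have hD : V.Ex ((x₁ - x₂) ^ 2) (α₁ + α₁) := hd.sq
  have h12 : V.Ex (x₁ * x₂) (α₁ + α₂) := h1.mul h2
  have hsq : V.Ex (x₁ ^ 2 * x₂ ^ 2) (α₁ + α₁ + (α₂ + α₂)) := h1.sq.mul h2.sq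
  have hnS : V.Ex (x₁ * x₂ * (b₂ + 2 * (x₁ + x₂)) + 4 * a₆) (α₁ + α₂ + 0) :=
    (h12.mul (ex_U C g1 g2)).add_gt (C.ge_four_a₆.gt (by grind))
  have h2nd := ex_second C g1 g2
  have hSe := eq_div_sq hne hS
  have hPe := eq_div_sq hne hP
  have hSi := (hnS.div hD).congr (show α₁ + α₂ + 0 - (α₁ + α₁) = α₂ - α₁ by grind)
  rcases lt_trichotomy (α₁ + α₂) h with hlt' | heq | hgt
  · have hnP : V.Ex (x₁ ^ 2 * x₂ ^ 2 - a₆ * (b₂ + 4 * (x₁ + x₂))) (α₁ + α₁ + (α₂ + α₂)) :=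
      hsq.sub_gt (h2nd.gt' (by grind))
    have hPi := hnP.div hD
    rcases vieta_split hSe hPe hSi hPi (by grind) with ⟨hr1, hr2⟩ | ⟨hr2, hr1⟩
    · rw [cl_of_ex hr1, cl_of_ex hr2]; unfold AVal.Rel; grind
    · rw [cl_of_ex hr1, cl_of_ex hr2]; unfold AVal.Rel; grind
  · have hnP : V.Ge (x₁ ^ 2 * x₂ ^ 2 - a₆ * (b₂ + 4 * (x₁ + x₂))) (h + h) :=
      (hsq.ge' (by grind)).sub h2nd.ge
    have hPi := hnP.div hD
    rcases vieta_split_le hSe hPe hSi hPi (by grind) with ⟨hr1, hr2⟩ | ⟨hr2, hr1⟩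
    · rw [cl_of_ex hr1, cl_of_ge hh (hr2.mono (by grind))]; unfold AVal.Rel; grind
    · rw [cl_of_ge hh (hr1.mono (by grind)), cl_of_ex hr2]; unfold AVal.Rel; grind
  · have hnP : V.Ex (x₁ ^ 2 * x₂ ^ 2 - a₆ * (b₂ + 4 * (x₁ + x₂))) (h + h) :=
      h2nd.gt_sub (hsq.gt' (by grind))
    have hPi := hnP.div hD
    rcases vieta_split hSe hPe hSi hPi (by grind) with ⟨hr1, hr2⟩ | ⟨hr2, hr1⟩
    · rw [cl_of_ex hr1, cl_of_ex hr2]; unfold AVal.Rel; grind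
    · rw [cl_of_ex hr1, cl_of_ex hr2]; unfold AVal.Rel; grind

/-- Case (M,M) with `α₁ = α₂`. -/
lemma case_MM_eq {α : G} (h1 : V.Ex x₁ α) (h2 : V.Ex x₂ α) (hα₁ : 0 < α)
    (hα₂ : α < h) (hne : x₁ ≠ x₂)
    (hS : (r₁ + r₂) * (x₁ - x₂) ^ 2 = x₁ * x₂ * (b₂ + 2 * (x₁ + x₂)) + 4 * a₆)
    (hP : (r₁ * r₂) * (x₁ - x₂) ^ 2 = x₁ ^ 2 * x₂ ^ 2 - a₆ * (b₂ + 4 * (x₁ + x₂))) :
    AVal.Rel h α α (V.cl h r₁) (V.cl h r₂) := by
  have hh := C.hh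
  have g1 : V.Gt x₁ 0 := h1.gt' hα₁
  have g2 : V.Gt x₂ 0 := h2.gt' hα₁
  have hd0 : x₁ - x₂ ≠ 0 := sub_ne_zero.mpr hne
  have hdge : V.Ge (x₁ - x₂) α := h1.ge.sub h2.ge
  have hd : α ≤ V.w (x₁ - x₂) := hdge.le_of_ne hd0
  have hD : V.Ex ((x₁ - x₂) ^ 2) (V.w (x₁ - x₂) + V.w (x₁ - x₂)) := (ex_of_ne hd0).sq
  have h12 : V.Ex (x₁ * x₂) (α + α) := h1.mul h2
  have hsq : V.Ex (x₁ ^ 2 * x₂ ^ 2) (α + α + (α + α)) := h1.sq.mul h2.sq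
  have hnS : V.Ex (x₁ * x₂ * (b₂ + 2 * (x₁ + x₂)) + 4 * a₆) (α + α + 0) :=
    (h12.mul (ex_U C g1 g2)).add_gt (C.ge_four_a₆.gt (by grind))
  have h2nd := ex_second C g1 g2
  have hSe := eq_div_sq hne hS
  have hPe := eq_div_sq hne hP
  have hSi := hnS.div hD
  rcases lt_trichotomy (α + α) h with hlt' | heq | hgt
  · have hnP : V.Ex (x₁ ^ 2 * x₂ ^ 2 - a₆ * (b₂ + 4 * (x₁ + x₂))) (α + α + (α + α)) :=
      hsq.sub_gt (h2nd.gt' (by grind))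
    have hPi := hnP.div hD
    rcases vieta_split hSe hPe hSi hPi (by grind) with ⟨hr1, hr2⟩ | ⟨hr2, hr1⟩
    · rw [cl_of_ex hr1, cl_of_ex hr2]; unfold AVal.Rel; grind
    · rw [cl_of_ex hr1, cl_of_ex hr2]; unfold AVal.Rel; grind
  · have hnP : V.Ge (x₁ ^ 2 * x₂ ^ 2 - a₆ * (b₂ + 4 * (x₁ + x₂))) (h + h) :=
      (hsq.ge' (by grind)).sub h2nd.ge
    have hPi := hnP.div hD
    rcases vieta_split_le hSe hPe hSi hPi (by grind) with ⟨hr1, hr2⟩ | ⟨hr2, hr1⟩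
    · rw [cl_of_ex hr1, cl_of_ge hh (hr2.mono (by grind))]; unfold AVal.Rel; grind
    · rw [cl_of_ge hh (hr1.mono (by grind)), cl_of_ex hr2]; unfold AVal.Rel; grind
  · have hnP : V.Ex (x₁ ^ 2 * x₂ ^ 2 - a₆ * (b₂ + 4 * (x₁ + x₂))) (h + h) :=
      h2nd.gt_sub (hsq.gt' (by grind))
    have hPi := hnP.div hD
    rcases vieta_split hSe hPe hSi hPi (by grind) with ⟨hr1, hr2⟩ | ⟨hr2, hr1⟩
    · rw [cl_of_ex hr1, cl_of_ex hr2]; unfold AVal.Rel; grind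
    · rw [cl_of_ex hr1, cl_of_ex hr2]; unfold AVal.Rel; grind

/-- Case (M,R). -/
lemma case_MR {α : G} (h1 : V.Ex x₁ α) (h2 : V.Ge x₂ h) (hα₁ : 0 < α)
    (hα₂ : α < h) (hne : x₁ ≠ x₂)
    (hS : (r₁ + r₂) * (x₁ - x₂) ^ 2 = x₁ * x₂ * (b₂ + 2 * (x₁ + x₂)) + 4 * a₆)
    (hP : (r₁ * r₂) * (x₁ - x₂) ^ 2 = x₁ ^ 2 * x₂ ^ 2 - a₆ * (b₂ + 4 * (x₁ + x₂))) :
    V.Ex r₁ (h - α) ∧ V.Ex r₂ (h - α) := by
  have hh := C.hh
  have g1 : V.Gt x₁ 0 := h1.gt' hα₁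
  have g2 : V.Gt x₂ 0 := h2.gt hh
  have hd : V.Ex (x₁ - x₂) α := h1.sub_gt (h2.gt hα₂)
  have hD : V.Ex ((x₁ - x₂) ^ 2) (α + α) := hd.sq
  have h12 : V.Ge (x₁ * x₂) (α + h) := h1.ge.mul h2
  have hsq : V.Ge (x₁ ^ 2 * x₂ ^ 2) (α + α + (h + h)) := h1.sq.ge.mul h2.sq
  have hnS : V.Ge (x₁ * x₂ * (b₂ + 2 * (x₁ + x₂)) + 4 * a₆) (α + h + 0) :=
    (h12.mul (ex_U C g1 g2).ge).add (C.ge_four_a₆.mono (by grind))
  have h2nd := ex_second C g1 g2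
  have hnP : V.Ex (x₁ ^ 2 * x₂ ^ 2 - a₆ * (b₂ + 4 * (x₁ + x₂))) (h + h) :=
    h2nd.gt_sub (hsq.gt (by grind))
  have hSe := eq_div_sq hne hS
  have hPe := eq_div_sq hne hP
  have hSi := hnS.div hD
  have hPi := hnP.div hD
  exact vieta_eq hSe hPe (hSi.mono (by grind)) (hPi.congr (by grind))

/-- Case (R,R). -/
lemma case_RR (h1 : V.Ge x₁ h) (h2 : V.Ge x₂ h) (hne : x₁ ≠ x₂)
    (hS : (r₁ + r₂) * (x₁ - x₂) ^ 2 = x₁ * x₂ * (b₂ + 2 * (x₁ + x₂)) + 4 * a₆)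
    (hP : (r₁ * r₂) * (x₁ - x₂) ^ 2 = x₁ ^ 2 * x₂ ^ 2 - a₆ * (b₂ + 4 * (x₁ + x₂))) :
    V.NotM r₁ ∧ V.NotM r₂ := by
  have hh := C.hh
  have g1 : V.Gt x₁ 0 := h1.gt hh
  have g2 : V.Gt x₂ 0 := h2.gt hh
  have hd0 : x₁ - x₂ ≠ 0 := sub_ne_zero.mpr hne
  have hdge : V.Ge (x₁ - x₂) h := h1.sub h2
  have hd : h ≤ V.w (x₁ - x₂) := hdge.le_of_ne hd0
  have hD : V.Ex ((x₁ - x₂) ^ 2) (V.w (x₁ - x₂) + V.w (x₁ - x₂)) := (ex_of_ne hd0).sq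
  have h12 : V.Ge (x₁ * x₂) (h + h) := h1.mul h2
  have hsq : V.Ge (x₁ ^ 2 * x₂ ^ 2) (h + h + (h + h)) := h1.sq.mul h2.sq
  have hnS : V.Ge (x₁ * x₂ * (b₂ + 2 * (x₁ + x₂)) + 4 * a₆) (h + h + 0) :=
    (h12.mul (ex_U C g1 g2).ge).add (C.ge_four_a₆.mono (by grind))
  have h2nd := ex_second C g1 g2
  have hnP : V.Ex (x₁ ^ 2 * x₂ ^ 2 - a₆ * (b₂ + 4 * (x₁ + x₂))) (h + h) :=
    h2nd.gt_sub (hsq.gt (by grind))
  have hSe := eq_div_sq hne hS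
  have hPe := eq_div_sq hne hP
  have hSi := hnS.div hD
  have hPi := hnP.div hD
  exact vieta_high hSe hPe (hSi.mono (by grind)) hPi (by grind)

/-- The main relation for two points with distinct `x`-coordinates. -/
theorem main_relN (hne : x₁ ≠ x₂)
    (hS : (r₁ + r₂) * (x₁ - x₂) ^ 2 = x₁ * x₂ * (b₂ + 2 * (x₁ + x₂)) + 4 * a₆)
    (hP : (r₁ * r₂) * (x₁ - x₂) ^ 2 = x₁ ^ 2 * x₂ ^ 2 - a₆ * (b₂ + 4 * (x₁ + x₂))) :
    AVal.Rel h (V.cl h x₁) (V.cl h x₂) (V.cl h r₁) (V.cl h r₂) := by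
  have hh := C.hh
  have hS' : (r₁ + r₂) * (x₂ - x₁) ^ 2 = x₂ * x₁ * (b₂ + 2 * (x₂ + x₁)) + 4 * a₆ := by
    rw [show (x₂ - x₁) ^ 2 = (x₁ - x₂) ^ 2 by ring, hS]; ring
  have hP' : (r₁ * r₂) * (x₂ - x₁) ^ 2 = x₂ ^ 2 * x₁ ^ 2 - a₆ * (b₂ + 4 * (x₂ + x₁)) := by
    rw [show (x₂ - x₁) ^ 2 = (x₁ - x₂) ^ 2 by ring, hP]; ring
  rcases regime V h x₁ with ⟨α₁, h1, hα₁⟩ | ⟨α₁, h1, hα₁, hα₁'⟩ | h1 <;>
  rcases regime V h x₂ with ⟨α₂, h2, hα₂⟩ | ⟨α₂, h2, hα₂, hα₂'⟩ | h2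
  · -- L L
    obtain ⟨hr1, hr2⟩ := case_LL C h1 h2 hα₁ hα₂ hne hS hP
    rw [cl_of_ex h1, cl_of_ex h2, cl_of_notM hh hr1, cl_of_notM hh hr2]
    unfold AVal.Rel; grind
  · -- L M
    obtain ⟨hr1, hr2⟩ := case_LM C h1 h2 hα₁ hα₂ hα₂' hne hS hP
    rw [cl_of_ex h1, cl_of_ex h2, cl_of_ex hr1, cl_of_ex hr2]
    unfold AVal.Rel; grind
  · -- L R
    obtain ⟨hr1, hr2⟩ := case_LR C h1 h2 hα₁ hne hS hP
    rw [cl_of_ex h1, cl_of_ge hh h2, cl_of_ge hh hr1, cl_of_ge hh hr2]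
    unfold AVal.Rel; grind
  · -- M L
    obtain ⟨hr1, hr2⟩ := case_LM C h2 h1 hα₂ hα₁ hα₁' hne.symm hS' hP'
    rw [cl_of_ex h1, cl_of_ex h2, cl_of_ex hr1, cl_of_ex hr2]
    unfold AVal.Rel; grind
  · -- M M
    rcases lt_trichotomy α₁ α₂ with hlt | heq | hgt
    · have := case_MM_lt C h1 h2 hα₁ hlt hα₂' hne hS hP
      rw [cl_of_ex h1, cl_of_ex h2]
      unfold AVal.Rel at this ⊢; grind
    · subst heq
      have := case_MM_eq C h1 h2 hα₁ hα₁' hne hS hP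
      rw [cl_of_ex h1, cl_of_ex h2]
      unfold AVal.Rel at this ⊢; grind
    · have := case_MM_lt C h2 h1 hα₂ hgt hα₁' hne.symm hS' hP'
      rw [cl_of_ex h1, cl_of_ex h2]
      unfold AVal.Rel at this ⊢; grind
  · -- M R
    obtain ⟨hr1, hr2⟩ := case_MR C h1 h2 hα₁ hα₁' hne hS hP
    rw [cl_of_ex h1, cl_of_ge hh h2, cl_of_ex hr1, cl_of_ex hr2]
    unfold AVal.Rel; grind
  · -- R L
    obtain ⟨hr1, hr2⟩ := case_LR C h2 h1 hα₂ hne.symm hS' hP'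
    rw [cl_of_ge hh h1, cl_of_ex h2, cl_of_ge hh hr1, cl_of_ge hh hr2]
    unfold AVal.Rel; grind
  · -- R M
    obtain ⟨hr1, hr2⟩ := case_MR C h2 h1 hα₂ hα₂' hne.symm hS' hP'
    rw [cl_of_ge hh h1, cl_of_ex h2, cl_of_ex hr1, cl_of_ex hr2]
    unfold AVal.Rel; grind
  · -- R R
    obtain ⟨hr1, hr2⟩ := case_RR C h1 h2 hne hS hP
    rw [cl_of_ge hh h1, cl_of_ge hh h2, cl_of_notM hh hr1, cl_of_notM hh hr2]
    unfold AVal.Rel; grind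

end Main

end Fermat.Agent.MultRed.Comp
end MergeWrap_Lib_MultRed_Comp_Core

section MergeWrap_Lib_MultRed_Comp_Rho -- from Lib/MultRed/Comp/Rho.lean

/-!
# Lib/MultRed/Comp/Rho: the component function on the points of a nodal normal form

`rhoN V h P = cl h (x(P))` (`0` at the origin) for a Weierstrass curve with `b₄ = 0`,
`b₆ = 4a₆`, `b₈ = b₂a₆`, `w b₂ = 0`, `w a₆ = 2h > 0`, `w 2 ≥ 0`.
* `rhoN_dbl`: `rhoN (P + P) = min (2a) (2h - 2a)`, `a = rhoN P`;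
* `rhoN_rel`: `{rhoN (P + Q), rhoN (P - Q)} = {|a - b|, min (a + b) (2h - a - b)}`;
* `rhoN_torsion`: `p • P = 0 ⇒ p • rhoN P ∈ ℤ • (2h)`.
Owner: helper45 (cluster E', seat E-L).
-/

set_option autoImplicit false

namespace Fermat.Agent.MultRed.Comp

open S05H65 S05H65.AVal WeierstrassCurve

section Dbl

variable {K : Type*} [Field K] {G : Type*} [AddCommGroup G] [LinearOrder G] [IsOrderedAddMonoid G]
variable {V : AVal K G} {b₂ a₆ : K} {h : G}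

/-- In the middle regime the denominator `4x³ + b₂x² + 4a₆` of the duplication formula has
exact valuation `2α`. -/
lemma ex_den_M (C : CoreN V b₂ a₆ h) {x : K} {α : G} (h1 : V.Ex x α) (hα : 0 < α) (hα' : α < h) :
    V.Ex (4 * x ^ 3 + b₂ * x ^ 2 + 4 * a₆) (α + α) := by
  have hh := C.hh
  have e3 : x ^ 3 = x ^ 2 * x := by ring
  have hx3 : V.Ex (x ^ 3) (α + α + α) := by rw [e3]; exact h1.sq.mul h1
  have h4x3 : V.Gt (4 * x ^ 3) (α + α) := (C.ge_four.mul hx3.ge).gt (by grind)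
  have hb : V.Ex (b₂ * x ^ 2) (α + α) := (C.hb₂.mul h1.sq).congr (by grind)
  exact (hb.gt_add h4x3).add_gt (C.ge_four_a₆.gt (by grind))

/-- Doubling: if `r (4x³ + b₂x² + 4a₆) = x⁴ - 8a₆x - b₂a₆` and the denominator is nonzero,
then `cl r = min (2a) (2h - 2a)` where `a = cl x`. -/
theorem dbl_relN (C : CoreN V b₂ a₆ h) {x r : K}
    (hden : 4 * x ^ 3 + b₂ * x ^ 2 + 4 * a₆ ≠ 0)
    (hr : r * (4 * x ^ 3 + b₂ * x ^ 2 + 4 * a₆) = x ^ 4 - 8 * a₆ * x - b₂ * a₆) :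
    V.cl h r = min (V.cl h x + V.cl h x) (h + h - V.cl h x - V.cl h x) := by
  have hh := C.hh
  have hre : r = (x ^ 4 - 8 * a₆ * x - b₂ * a₆) / (4 * x ^ 3 + b₂ * x ^ 2 + 4 * a₆) := by
    rw [← hr, mul_div_cancel_right₀ _ hden]
  have e3 : x ^ 3 = x ^ 2 * x := by ring
  have e4 : x ^ 4 = x ^ 2 * x ^ 2 := by ring
  have hba := C.ex_b₂a₆
  have hD : V.Ex (4 * x ^ 3 + b₂ * x ^ 2 + 4 * a₆) (V.w (4 * x ^ 3 + b₂ * x ^ 2 + 4 * a₆)) :=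
    ex_of_ne hden
  rcases regime V h x with ⟨α, h1, hα⟩ | ⟨α, h1, hα, hα'⟩ | h1
  · -- L
    have hx4 : V.Ex (x ^ 4) (α + α + (α + α)) := by rw [e4]; exact h1.sq.mul h1.sq
    have hx3 : V.Ex (x ^ 3) (α + α + α) := by rw [e3]; exact h1.sq.mul h1
    have h8 : V.Ge (8 * a₆ * x) (0 + (h + h) + α) := (C.ge_eight.mul C.ha₆.ge).mul h1.ge
    have hnum : V.Ex (x ^ 4 - 8 * a₆ * x - b₂ * a₆) (α + α + (α + α)) :=
      (hx4.sub_gt (h8.gt (by grind))).sub_gt (hba.gt' (by grind))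
    have hdge : V.Ge (4 * x ^ 3 + b₂ * x ^ 2 + 4 * a₆) (α + α + α) :=
      (((C.ge_four.mul hx3.ge).mono (by grind)).add
        ((C.hb₂.mul h1.sq).ge' (by grind))).add (C.ge_four_a₆.mono (by grind))
    have hdle := hdge.le_of_ne hden
    have hrr := hnum.div hD
    rw [← hre] at hrr
    rw [cl_of_notM hh (hrr.notM (by grind)), cl_of_ex h1]
    grind
  · -- M
    have hx4 : V.Ex (x ^ 4) (α + α + (α + α)) := by rw [e4]; exact h1.sq.mul h1.sq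
    have h8 : V.Gt (8 * a₆ * x) (h + h) :=
      ((C.ge_eight.mul C.ha₆.ge).mul h1.ge).gt (by grind)
    have hden' := ex_den_M C h1 hα hα'
    rcases lt_trichotomy (α + α) h with hlt | heq | hgt
    · have hnum : V.Ex (x ^ 4 - 8 * a₆ * x - b₂ * a₆) (α + α + (α + α)) :=
        (hx4.sub_gt (h8.mono (by grind))).sub_gt (hba.gt' (by grind))
      have hrr := hnum.div hden'
      rw [← hre] at hrr
      rw [cl_of_ex hrr, cl_of_ex h1]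
      grind
    · have hnum : V.Ge (x ^ 4 - 8 * a₆ * x - b₂ * a₆) (h + h) :=
        ((hx4.ge' (by grind)).sub h8.ge).sub hba.ge
      have hrr := hnum.div hden'
      rw [← hre] at hrr
      rw [cl_of_ge hh (hrr.mono (by grind)), cl_of_ex h1]
      grind
    · have hnum : V.Ex (x ^ 4 - 8 * a₆ * x - b₂ * a₆) (h + h) :=
        hba.gt_sub ((hx4.gt' (by grind)).sub h8)
      have hrr := hnum.div hden'
      rw [← hre] at hrr
      rw [cl_of_ex hrr, cl_of_ex h1]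
      grind
  · -- R
    have hx2 : V.Ge (x ^ 2) (h + h) := h1.sq
    have hx4 : V.Ge (x ^ 4) (h + h + (h + h)) := by rw [e4]; exact hx2.mul hx2
    have hx3 : V.Ge (x ^ 3) (h + h + h) := by rw [e3]; exact hx2.mul h1
    have h8 : V.Gt (8 * a₆ * x) (h + h) :=
      ((C.ge_eight.mul C.ha₆.ge).mul h1).gt (by grind)
    have hnum : V.Ex (x ^ 4 - 8 * a₆ * x - b₂ * a₆) (h + h) :=
      hba.gt_sub ((hx4.gt (by grind)).sub h8)
    have hdge : V.Ge (4 * x ^ 3 + b₂ * x ^ 2 + 4 * a₆) (h + h) :=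
      (((C.ge_four.mul hx3).mono (by grind)).add
        ((C.hb₂.ge.mul hx2).mono (by grind))).add C.ge_four_a₆
    have hdle := hdge.le_of_ne hden
    have hrr := hnum.div hD
    rw [← hre] at hrr
    rw [cl_of_notM hh (hrr.notM (by grind)), cl_of_ge hh h1]
    grind

/-- A zero of the denominator `4x³ + b₂x² + 4a₆` is not in the middle regime. -/
lemma cl_of_den_eq_zero (C : CoreN V b₂ a₆ h) {x : K}
    (hden : 4 * x ^ 3 + b₂ * x ^ 2 + 4 * a₆ = 0) :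
    V.cl h x = 0 ∨ V.cl h x = h := by
  have hh := C.hh
  rcases regime V h x with ⟨α, h1, hα⟩ | ⟨α, h1, hα, hα'⟩ | h1
  · left; rw [cl_of_ex h1]; grind
  · exact absurd hden (ex_den_M C h1 hα hα').1
  · right; exact cl_of_ge hh h1

end Dbl

section Rho

variable {K : Type*} [Field K] [DecidableEq K]
  {G : Type*} [AddCommGroup G] [LinearOrder G] [IsOrderedAddMonoid G]
  {W : WeierstrassCurve.Affine K} {V : AVal K G} {b₂ a₆ : K} {h : G}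

/-- The `b`-invariants of a curve in nodal normal form (`a₃ = a₄ = 0`). -/
structure NodalB (W : WeierstrassCurve.Affine K) (b₂ a₆ : K) : Prop where
  hb₂ : W.b₂ = b₂
  hb₄ : W.b₄ = 0
  hb₆ : W.b₆ = 4 * a₆
  hb₈ : W.b₈ = b₂ * a₆

/-- A curve with `a₃ = a₄ = 0` is in nodal normal form. -/
lemma nodalB_of_a₃_a₄ (W : WeierstrassCurve.Affine K) (h3 : W.a₃ = 0) (h4 : W.a₄ = 0) :
    NodalB W W.b₂ W.a₆ where
  hb₂ := rfl
  hb₄ := by simp only [WeierstrassCurve.b₄]; rw [h3, h4]; ring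
  hb₆ := by simp only [WeierstrassCurve.b₆]; rw [h3]; ring
  hb₈ := by simp only [WeierstrassCurve.b₈, WeierstrassCurve.b₂]; rw [h3, h4]; ring

/-- The component function: `0` at the origin, otherwise the clamped valuation of `x`. -/
noncomputable def rhoN (V : AVal K G) (h : G) (P : W.Point) : G :=
  if P = 0 then 0 else V.cl h (px P)

@[simp] lemma rhoN_zero : rhoN V h (0 : W.Point) = 0 := by simp [rhoN]

lemma rhoN_of_ne {P : W.Point} (hP : P ≠ 0) : rhoN V h P = V.cl h (px P) := by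
  simp [rhoN, hP]

@[simp] lemma rhoN_neg (P : W.Point) : rhoN V h (-P) = rhoN V h P := by
  simp [rhoN]

lemma rhoN_nonneg (hh : 0 < h) (P : W.Point) : 0 ≤ rhoN V h P := by
  unfold rhoN
  split_ifs
  · exact le_refl _
  · exact AVal.cl_nonneg hh _

lemma rhoN_le (hh : 0 < h) (P : W.Point) : rhoN V h P ≤ h := by
  unfold rhoN
  split_ifs
  · exact hh.le
  · exact AVal.cl_le hh _

variable (N : NodalB W b₂ a₆)
include N

lemma NodalB.psi2sq_eq (x : K) : psi2sq W x = 4 * x ^ 3 + b₂ * x ^ 2 + 4 * a₆ := by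
  simp only [psi2sq]
  rw [N.hb₂, N.hb₄, N.hb₆]
  ring

lemma NodalB.dupNum_eq (x : K) : dupNum W x = x ^ 4 - 8 * a₆ * x - b₂ * a₆ := by
  simp only [dupNum]
  rw [N.hb₄, N.hb₆, N.hb₈]
  ring

/-- `rhoN (P + P) = min (2a) (2h - 2a)` where `a = rhoN P`. -/
theorem rhoN_dbl (C : CoreN V b₂ a₆ h) (P : W.Point) :
    rhoN V h (P + P) = min (rhoN V h P + rhoN V h P) (h + h - rhoN V h P - rhoN V h P) := by
  have hh := C.hh
  by_cases hP : P = 0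
  · subst hP
    simp only [add_zero, rhoN_zero]
    grind
  by_cases h2 : P + P = 0
  · rw [h2, rhoN_zero, rhoN_of_ne hP]
    have h0 := (add_self_eq_zero_iff hP).mp h2
    rw [N.psi2sq_eq] at h0
    rcases cl_of_den_eq_zero C h0 with h1 | h1 <;> rw [h1] <;> grind
  · rw [rhoN_of_ne h2, rhoN_of_ne hP]
    have hden : 4 * px P ^ 3 + b₂ * px P ^ 2 + 4 * a₆ ≠ 0 := fun h0 =>
      h2 ((add_self_eq_zero_iff hP).mpr (by rw [N.psi2sq_eq]; exact h0))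
    have h1 := px_add_self hP h2
    rw [N.psi2sq_eq, N.dupNum_eq] at h1
    exact dbl_relN C hden h1

/-- The fundamental relation satisfied by the component function. -/
theorem rhoN_rel (C : CoreN V b₂ a₆ h) (P Q : W.Point) :
    AVal.Rel h (rhoN V h P) (rhoN V h Q) (rhoN V h (P + Q)) (rhoN V h (P - Q)) := by
  have hh := C.hh
  by_cases hP : P = 0
  · subst hP
    have h1 := rhoN_nonneg (V := V) hh Q
    have h2 := rhoN_le (V := V) hh Q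
    simp only [zero_add, zero_sub, rhoN_neg, rhoN_zero]
    unfold AVal.Rel; grind
  by_cases hQ : Q = 0
  · subst hQ
    have h1 := rhoN_nonneg (V := V) hh P
    have h2 := rhoN_le (V := V) hh P
    simp only [add_zero, sub_zero, rhoN_zero]
    unfold AVal.Rel; grind
  by_cases hx : px P = px Q
  · rcases eq_or_eq_neg_of_px_eq hP hQ hx with rfl | rfl
    · have := rhoN_dbl (V := V) N C P
      rw [sub_self, rhoN_zero, this]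
      unfold AVal.Rel; grind
    · have := rhoN_dbl (V := V) N C Q
      rw [neg_add_cancel, rhoN_zero, show -Q - Q = -(Q + Q) by abel, rhoN_neg, rhoN_neg, this]
      unfold AVal.Rel; grind
  · have hadd : P + Q ≠ 0 := add_ne_zero_of_px_ne hx hP hQ
    have hsub : P - Q ≠ 0 := sub_ne_zero_of_px_ne hx
    rw [rhoN_of_ne hP, rhoN_of_ne hQ, rhoN_of_ne hadd, rhoN_of_ne hsub]
    have hS := px_add_add_px_sub hP hQ hx
    have hP' := px_add_mul_px_sub hP hQ hx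
    rw [N.hb₂, N.hb₄, N.hb₆] at hS
    rw [N.hb₄, N.hb₆, N.hb₈] at hP'
    refine main_relN C hx ?_ ?_
    · rw [hS]; ring
    · rw [hP']; ring

/-- The component function satisfies the pair relation of `S05/H27/C2.lean`. -/
lemma rhoN_pairRel (C : CoreN V b₂ a₆ h) :
    S05H27.PairRel (rhoN (W := W) V h) (h + h) := by
  intro P Q
  have hr := rhoN_rel (V := V) N C P Q
  set a := rhoN V h P
  set b := rhoN V h Q
  set c := rhoN V h (P + Q)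
  set d' := rhoN V h (P - Q)
  have key1 : ∀ x : G, x = max (a - b) (b - a) → S05H27.SimN (h + h) x (a - b) := by
    intro x hx
    rcases max_choice (a - b) (b - a) with h1 | h1
    · exact ⟨0, Or.inl (by rw [hx, h1]; simp)⟩
    · exact ⟨0, Or.inr (by rw [hx, h1]; simp)⟩
  have key2 : ∀ x : G, x = min (a + b) (h + h - a - b) → S05H27.SimN (h + h) x (a + b) := by
    intro x hx
    rcases min_choice (a + b) (h + h - a - b) with h1 | h1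
    · exact ⟨0, Or.inl (by rw [hx, h1]; simp)⟩
    · exact ⟨1, Or.inr (by rw [hx, h1, one_smul]; abel)⟩
  rcases hr with ⟨h1, h2⟩ | ⟨h1, h2⟩
  · exact Or.inr ⟨key2 _ h2, key1 _ h1⟩
  · exact Or.inl ⟨key2 _ h2, key1 _ h1⟩

/-- **Torsion and components**: if `p • P = 0` then `p • rhoN P` is a multiple of `2h = w(a₆)`. -/
theorem rhoN_torsion (C : CoreN V b₂ a₆ h) (P : W.Point) (p : ℕ) (hP : p • P = 0) :
    ∃ m : ℤ, p • rhoN V h P = m • (h + h) :=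
  S05H27.rho_pow_of_torsion (rhoN (W := W) V h) (h + h) rhoN_zero (rhoN_pairRel N C) P p hP

end Rho

end Fermat.Agent.MultRed.Comp
end MergeWrap_Lib_MultRed_Comp_Rho
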